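import Mathlib

/-!
# S16 / GAL block H: lattices of homomorphisms (owner: helper261)

`B` a finitely generated additive group (not necessarily commutative), `K ⊆ B`.
* every `φ : B →+ ℂ` killing `K` is a `ℂ`-combination of homomorphisms `B →+ ℤ` killing `K`;
* `ℤ`-independent families of homomorphisms `B →+ ℤ` are `ℂ`-independent;
* submodules of `B →+ ℤ` are free of finite rank;
* `finrank ℤ (homK ℤ K ℤ) = finrank ℂ (homK ℂ K ℂ)`;
* the count of the reduction modulo `n` of a saturated lattice.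
-/

set_option autoImplicit false

open Module

namespace Fermat.Agent.S16.Lift

variable {B : Type*} [AddGroup B]

/-- Homomorphisms killing a subset. -/
def homK (R : Type*) [Semiring R] (K : Set B) (A : Type*) [AddCommGroup A] [Module R A] :
    Submodule R (B →+ A) where
  carrier := {φ | ∀ x ∈ K, φ x = 0}
  zero_mem' := fun _ _ => rfl
  add_mem' := by
    intro φ ψ hφ hψ x hx
    show φ x + ψ x = 0
    rw [hφ x hx, hψ x hx, add_zero]
  smul_mem' := by
    intro c φ hφ x hx
    show c • φ x = 0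
    rw [hφ x hx, smul_zero]

lemma mem_homK {R : Type*} [Semiring R] {K : Set B} {A : Type*} [AddCommGroup A] [Module R A]
    {φ : B →+ A} : φ ∈ homK R K A ↔ ∀ x ∈ K, φ x = 0 := Iff.rfl

/-- Push-forward of homomorphisms along `ℤ → A`. -/
def castTo (A : Type*) [AddCommGroupWithOne A] : (B →+ ℤ) →+ (B →+ A) :=
  AddMonoidHom.compHom (Int.castAddHom A)

@[simp] lemma castTo_apply (A : Type*) [AddCommGroupWithOne A] (φ : B →+ ℤ) (x : B) :
    castTo A φ x = ((φ x : ℤ) : A) := rfl

/-- Every complex homomorphism killing `K` is a combination of integral ones killing `K`. -/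
lemma mem_span_castTo [AddGroup.FG B] (K : Set B) (φ : B →+ ℂ) (hφ : ∀ x ∈ K, φ x = 0) :
    φ ∈ Submodule.span ℂ (castTo ℂ '' {ψ : B →+ ℤ | ∀ x ∈ K, ψ x = 0}) := by
  classical
  let M : Submodule ℤ ℂ := AddSubgroup.toIntSubmodule φ.range
  have hfg : M.FG := by
    rw [Submodule.fg_iff_addSubgroup_fg]
    exact (AddGroup.fg_iff_addSubgroup_fg _).mp (AddGroup.fg_range φ)
  have : Module.Finite ℤ M := Module.Finite.iff_fg.mpr hfg
  have : Module.Free ℤ M := Module.free_of_finite_type_torsion_free'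
  let b := Module.finBasis ℤ M
  let ρ : B →+ M := AddMonoidHom.mk' (fun x => (⟨φ x, ⟨x, rfl⟩⟩ : M)) (by
    intro x y
    apply Subtype.ext
    simp)
  let ψ : Fin (finrank ℤ M) → (B →+ ℤ) := fun i => (b.coord i).toAddMonoidHom.comp ρ
  have hψ : ∀ i x, ψ i x = b.repr (ρ x) i := fun i x => rfl
  have hsum : φ = ∑ i, ((b i : M) : ℂ) • castTo ℂ (ψ i) := by
    refine AddMonoidHom.ext fun x => ?_
    have h1 := congrArg (fun m : M => (m : ℂ)) (b.sum_repr (ρ x))
    simp only [Submodule.coe_sum, Submodule.coe_smul] at h1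
    have h2 : ((ρ x : M) : ℂ) = φ x := rfl
    rw [h2] at h1
    rw [← h1, AddMonoidHom.finsetSum_apply]
    refine Finset.sum_congr rfl fun i _ => ?_
    show _ = ((b i : M) : ℂ) • ((ψ i x : ℤ) : ℂ)
    rw [hψ, zsmul_eq_mul, smul_eq_mul, mul_comm]
  rw [hsum]
  refine Submodule.sum_mem _ fun i _ => Submodule.smul_mem _ _ (Submodule.subset_span ⟨ψ i, ?_, rfl⟩)
  intro x hx
  have : ρ x = 0 := Subtype.ext (hφ x hx)
  rw [hψ, this]
  simp

/-- `ℤ`-independent homomorphisms to `ℤ` are `ℂ`-independent. -/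
lemma linearIndependent_castTo {ι : Type*} (v : ι → (B →+ ℤ)) (hv : LinearIndependent ℤ v) :
    LinearIndependent ℂ (fun i => castTo ℂ (v i)) := by
  classical
  let j : (B →+ ℤ) →ₗ[ℤ] (B → ℚ) :=
    { toFun := fun φ x => ((φ x : ℤ) : ℚ)
      map_add' := fun φ ψ => by funext x; simp
      map_smul' := fun m φ => by funext x; simp }
  have hj : LinearMap.ker j = ⊥ := by
    rw [LinearMap.ker_eq_bot']
    intro φ hφ
    refine AddMonoidHom.ext fun x => ?_
    have := congrFun hφ x
    simpa [j] using this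
  have h1 : LinearIndependent ℤ (fun i => j (v i)) := hv.map' j hj
  have h2 : LinearIndependent ℚ (fun i => j (v i)) :=
    (LinearIndependent.iff_fractionRing ℤ ℚ).mp h1
  rw [linearIndependent_iff']
  intro s c hc i hi
  rw [← Module.forall_dual_apply_eq_zero_iff ℚ (c i)]
  intro ℓ
  have h3 : ∑ i ∈ s, ℓ (c i) • j (v i) = 0 := by
    funext x
    have h4 := congrArg (fun φ : B →+ ℂ => ℓ (φ x)) hc
    simp only [AddMonoidHom.finsetSum_apply, map_sum, AddMonoidHom.zero_apply, map_zero] at h4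
    rw [Finset.sum_apply, Pi.zero_apply, ← h4]
    refine Finset.sum_congr rfl fun i _ => ?_
    have h5 : (c i • castTo ℂ (v i)) x = ((v i x : ℤ) : ℚ) • c i := by
      show c i • ((v i x : ℤ) : ℂ) = _
      rw [smul_eq_mul, mul_comm, Rat.smul_def]
      simp
    rw [h5, map_smul]
    simp [j, mul_comm]
  exact linearIndependent_iff'.mp h2 s (fun i => ℓ (c i)) h3 i hi

/-- Restriction to a finite generating set. -/
lemma exists_injective_restrict [AddGroup.FG B] :
    ∃ (S : Set B) (_ : S.Finite) (r : (B →+ ℤ) →ₗ[ℤ] (S → ℤ)), Function.Injective r := by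
  obtain ⟨S, hS, hfin⟩ := AddGroup.fg_iff.mp (inferInstance : AddGroup.FG B)
  refine ⟨S, hfin,
    { toFun := fun φ s => φ s
      map_add' := fun φ ψ => by funext x; simp
      map_smul' := fun m φ => by funext x; simp }, ?_⟩
  intro φ ψ h
  refine AddMonoidHom.eq_of_eqOn_dense hS fun x hx => ?_
  exact congrFun h ⟨x, hx⟩

lemma free_finite_of_fg [AddGroup.FG B] (Λ : Submodule ℤ (B →+ ℤ)) :
    Module.Free ℤ Λ ∧ Module.Finite ℤ Λ := by
  obtain ⟨S, hfin, r, hr⟩ := exists_injective_restrict (B := B)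
  have : Finite S := hfin
  have hinj : Function.Injective (r ∘ₗ Λ.subtype) := hr.comp Subtype.val_injective
  let e := LinearEquiv.ofInjective (r ∘ₗ Λ.subtype) hinj
  exact ⟨Module.Free.of_equiv e.symm, Module.Finite.equiv e.symm⟩

/-- The rank of the lattice of integral homomorphisms killing `K` is the dimension of the space of
complex homomorphisms killing `K`. -/
theorem finrank_homK_int [AddGroup.FG B] (K : Set B) :
    finrank ℤ (homK ℤ K ℤ) = finrank ℂ (homK ℂ K ℂ) := by
  classical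
  obtain ⟨hfree, hfinite⟩ := free_finite_of_fg (homK ℤ K ℤ)
  let b := Module.finBasis ℤ (homK ℤ K ℤ)
  have hv : LinearIndependent ℤ (fun i => ((b i : homK ℤ K ℤ) : B →+ ℤ)) :=
    b.linearIndependent.map' (homK ℤ K ℤ).subtype (Submodule.ker_subtype _)
  have hw := linearIndependent_castTo _ hv
  have hspan : homK ℂ K ℂ =
      Submodule.span ℂ (Set.range fun i => castTo ℂ ((b i : homK ℤ K ℤ) : B →+ ℤ)) := by
    apply le_antisymm
    · intro φ hφ
      have h1 := mem_span_castTo K φ hφ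
      refine Submodule.span_le.mpr ?_ h1
      rintro _ ⟨ψ, hψ, rfl⟩
      have h2 := b.sum_repr ⟨ψ, hψ⟩
      have h3 : ψ = ∑ i, b.repr ⟨ψ, hψ⟩ i • ((b i : homK ℤ K ℤ) : B →+ ℤ) := by
        have := congrArg (fun m : homK ℤ K ℤ => (m : B →+ ℤ)) h2
        simp only [Submodule.coe_sum, Submodule.coe_smul] at this
        exact this.symm
      rw [h3, map_sum]
      refine Submodule.sum_mem _ fun i _ => ?_
      rw [map_zsmul, ← Int.cast_smul_eq_zsmul ℂ]
      exact Submodule.smul_mem _ _ (Submodule.subset_span ⟨i, rfl⟩)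
    · rw [Submodule.span_le]
      rintro _ ⟨i, rfl⟩ x hx
      show (((b i : homK ℤ K ℤ) : B →+ ℤ) x : ℂ) = 0
      rw [(b i).2 x hx]
      simp
  rw [hspan, finrank_span_eq_card hw]
  simp

/-- **Counting the reduction of a saturated lattice.** -/
theorem card_reduction [AddGroup.FG B] (n : ℕ) (hn : 0 < n) (Λ : Submodule ℤ (B →+ ℤ))
    (hsat : ∀ φ : B →+ ℤ, (n : ℤ) • φ ∈ Λ → φ ∈ Λ)
    (X : AddSubgroup (B →+ ZMod n)) (hX : ∀ φ ∈ Λ, castTo (ZMod n) φ ∈ X)
    (hsurj : ∀ χ ∈ X, ∃ φ ∈ Λ, castTo (ZMod n) φ = χ) :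
    Nat.card X = n ^ finrank ℤ Λ := by
  classical
  obtain ⟨hfree, hfinite⟩ := free_finite_of_fg Λ
  let b := Module.finBasis ℤ Λ
  let v : Fin (finrank ℤ Λ) → (B →+ ZMod n) := fun i => castTo (ZMod n) ((b i : Λ) : B →+ ℤ)
  let Φ : (Fin (finrank ℤ Λ) → ZMod n) →ₗ[ZMod n] (B →+ ZMod n) := Fintype.linearCombination (ZMod n) v
  have hΦ : ∀ c, Φ c = ∑ i, c i • v i := fun c => Fintype.linearCombination_apply (ZMod n) v c
  -- reduction of an integral combination
  have hred : ∀ m : Fin (finrank ℤ Λ) → ℤ,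
      castTo (ZMod n) (∑ i, m i • ((b i : Λ) : B →+ ℤ)) = Φ fun i => ((m i : ℤ) : ZMod n) := by
    intro m
    rw [hΦ, map_sum]
    refine Finset.sum_congr rfl fun i _ => ?_
    rw [map_zsmul, ← Int.cast_smul_eq_zsmul (ZMod n)]
  have hcoe : ∀ φ : Λ, (φ : B →+ ℤ) = ∑ i, b.repr φ i • ((b i : Λ) : B →+ ℤ) := by
    intro φ
    have := congrArg (fun m : Λ => (m : B →+ ℤ)) (b.sum_repr φ)
    simp only [Submodule.coe_sum, Submodule.coe_smul] at this
    exact this.symm
  have hinj : Function.Injective Φ := by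
    rw [injective_iff_map_eq_zero]
    intro c hc
    choose m hm using fun i => ZMod.intCast_surjective (c i)
    have hc' : c = fun i => ((m i : ℤ) : ZMod n) := funext fun i => (hm i).symm
    rw [hc', ← hred] at hc
    set φ : Λ := ∑ i, m i • b i with hφ
    have hφ' : (φ : B →+ ℤ) = ∑ i, m i • ((b i : Λ) : B →+ ℤ) := by simp [hφ]
    rw [← hφ'] at hc
    -- `φ` is divisible by `n`
    have hdvd : ∀ x, (n : ℤ) ∣ (φ : B →+ ℤ) x := by
      intro x
      rw [← ZMod.intCast_zmod_eq_zero_iff_dvd]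
      exact congrArg (fun χ : B →+ ZMod n => χ x) hc
    have hn' : (n : ℤ) ≠ 0 := by exact_mod_cast hn.ne'
    let ψ : B →+ ℤ := AddMonoidHom.mk' (fun x => (φ : B →+ ℤ) x / n) (by
      intro x y
      rw [map_add]
      exact Int.add_ediv_of_dvd_left (hdvd x))
    have hψ : (n : ℤ) • ψ = (φ : B →+ ℤ) := by
      refine AddMonoidHom.ext fun x => ?_
      show (n : ℤ) • ((φ : B →+ ℤ) x / n) = _
      rw [smul_eq_mul, Int.mul_ediv_cancel' (hdvd x)]
    have hψΛ : ψ ∈ Λ := hsat ψ (by rw [hψ]; exact φ.2)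
    have h1 : φ = (n : ℤ) • (⟨ψ, hψΛ⟩ : Λ) := Subtype.ext hψ.symm
    have h2 : ∀ i, m i = n * b.repr ⟨ψ, hψΛ⟩ i := by
      intro i
      have h3 : b.repr φ i = m i := by
        rw [hφ, map_sum]
        simp [Finsupp.single_apply]
      rw [← h3, h1, map_smul]
      simp
    rw [hc']
    funext i
    rw [h2 i]
    simp
  have hrange : Set.range Φ = (X : Set (B →+ ZMod n)) := by
    ext χ
    constructor
    · rintro ⟨c, rfl⟩
      choose m hm using fun i => ZMod.intCast_surjective (c i)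
      have hc' : c = fun i => ((m i : ℤ) : ZMod n) := funext fun i => (hm i).symm
      rw [hc', ← hred]
      refine hX _ (Submodule.sum_mem _ fun i _ => Submodule.smul_mem _ _ (b i).2)
    · intro hχ
      obtain ⟨φ, hφ, rfl⟩ := hsurj χ hχ
      refine ⟨fun i => ((b.repr ⟨φ, hφ⟩ i : ℤ) : ZMod n), ?_⟩
      rw [← hred, ← hcoe ⟨φ, hφ⟩]
  have h1 : Nat.card X = Nat.card (Set.range Φ) := by
    rw [hrange]
    rfl
  rw [h1, ← Nat.card_congr (Equiv.ofInjective Φ hinj), Nat.card_fun, Nat.card_zmod]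
  simp

end Fermat.Agent.S16.Lift
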