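import Fermat.Agent.S16.Lift
import Fermat.Agent.S16.Lift.Lattice
import Fermat.Agent.S21

/-!
# S16 / GAL block H: the lattice `Hom_par(Γ₀(N), ℤ)` and the count of `Hom_{par,ell}(Γ₀(N), ℤ/n)`
(owner: helper261)
-/

set_option autoImplicit false

open Module

namespace Fermat.Agent.S16.Lift

open scoped MatrixGroups
open ModularGroup ModularCurve.Period CongruenceSubgroup

/-- The parabolic elements (trace `±2`) of `Γ₀(N)`. -/
def parSet (N : ℕ) : Set (Additive (Gamma0 N)) :=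
  {x | (((Additive.toMul x : Gamma0 N) : SL(2, ℤ)) : Matrix (Fin 2) (Fin 2) ℤ).trace ^ 2 = 4}

/-- The elements of `Γ₀(N)` which are conjugate in `SL(2,ℤ)` to a power of `S`, `S * T` or `T`. -/
def peSet (N : ℕ) : Set (Additive (Gamma0 N)) :=
  {x | ∃ σ ∈ ({S, S * T, T} : Set SL(2, ℤ)), ∃ (k : ℕ) (g : SL(2, ℤ)),
    ((Additive.toMul x : Gamma0 N) : SL(2, ℤ)) = g⁻¹ * σ ^ k * g}

/-- Homomorphisms `Γ₀(N) → A` killing the parabolic and elliptic elements. -/
def homPE (N : ℕ) (A : Type*) [AddCommGroup A] : AddSubgroup (Additive (Gamma0 N) →+ A) :=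
  (homK ℤ (peSet N) A).toAddSubgroup

lemma mem_homPE {N : ℕ} {A : Type*} [AddCommGroup A] {χ : Additive (Gamma0 N) →+ A} :
    χ ∈ homPE N A ↔ ∀ σ ∈ ({S, S * T, T} : Set SL(2, ℤ)), ∀ (k : ℕ) (g : SL(2, ℤ))
      (h : g⁻¹ * σ ^ k * g ∈ Gamma0 N), χ (Additive.ofMul ⟨_, h⟩) = 0 := by
  constructor
  · intro hχ σ hσ k g h
    exact hχ _ ⟨σ, hσ, k, g, rfl⟩
  · rintro hχ x ⟨σ, hσ, k, g, hx⟩
    have h : g⁻¹ * σ ^ k * g ∈ Gamma0 N := hx ▸ (Additive.toMul x).2
    have := hχ σ hσ k g h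
    have hx' : x = Additive.ofMul (⟨_, h⟩ : Gamma0 N) := by
      apply Additive.toMul.injective
      exact Subtype.ext hx
    rw [hx']
    exact this

lemma homK_parSet (R : Type*) [Semiring R] (N : ℕ) (A : Type*) [AddCommGroup A] [Module R A] :
    homK R (parSet N) A = parabolicHoms R (Gamma0 N) A := by
  ext φ
  constructor
  · intro h γ hγ
    exact h (Additive.ofMul γ) hγ
  · intro h x hx
    exact h (Additive.toMul x) hx

instance instFGGamma0 (N : ℕ) [NeZero N] : AddGroup.FG (Additive (Gamma0 N)) := by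
  have : Group.FG SL(2, ℤ) := by
    rw [Group.fg_iff]
    exact ⟨{ModularGroup.S, ModularGroup.T}, _root_.SpecialLinearGroup.SL2Z_generators, by simp⟩
  have : Group.FG (Gamma0 N) := Subgroup.fg_of_index_ne_zero _
  infer_instance

/-- `dim Hom_par(Γ₀(N), ℂ) = 2 dim S₂(Γ₀(N))`. -/
theorem finrank_parabolicHoms_complex (N : ℕ) [NeZero N] :
    finrank ℂ (parabolicHoms ℂ (Gamma0 N) ℂ) = 2 * finrank ℂ (CuspForm (Gamma0 N) 2) := by
  obtain ⟨hinj, hrange⟩ := Fermat.Agent.S21.result N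
  have := Fermat.Agent.S21.finite_cuspForm N
  rw [← hrange, ← (LinearEquiv.ofInjective _ hinj).finrank_eq, Module.finrank_prod]
  ring

/-- The lattice `Hom_par(Γ₀(N), ℤ)` is free of finite rank. -/
theorem free_finite_parabolicHoms_int (N : ℕ) [NeZero N] :
    Module.Free ℤ (parabolicHoms ℤ (Gamma0 N) ℤ) ∧ Module.Finite ℤ (parabolicHoms ℤ (Gamma0 N) ℤ) :=
  free_finite_of_fg _

/-- The lattice `Hom_par(Γ₀(N), ℤ)` has rank `2 dim S₂(Γ₀(N))`. -/
theorem finrank_parabolicHoms_int (N : ℕ) [NeZero N] :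
    finrank ℤ (parabolicHoms ℤ (Gamma0 N) ℤ) = 2 * finrank ℂ (CuspForm (Gamma0 N) 2) := by
  rw [← homK_parSet, finrank_homK_int, homK_parSet, finrank_parabolicHoms_complex]

/-- The complex span of the lattice is everything. -/
theorem span_parabolicHoms_int (N : ℕ) [NeZero N] :
    Submodule.span ℂ (castTo ℂ '' (parabolicHoms ℤ (Gamma0 N) ℤ : Set (Additive (Gamma0 N) →+ ℤ)))
      = parabolicHoms ℂ (Gamma0 N) ℂ := by
  apply le_antisymm
  · rw [Submodule.span_le]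
    rintro _ ⟨ψ, hψ, rfl⟩ γ hγ
    show ((ψ (Additive.ofMul γ) : ℤ) : ℂ) = 0
    rw [hψ γ hγ]
    simp
  · intro φ hφ
    rw [← homK_parSet] at hφ
    have := mem_span_castTo (parSet N) φ hφ
    rw [← homK_parSet]
    exact this

/-- An integral parabolic homomorphism kills the parabolic and elliptic elements. -/
lemma apply_eq_zero_of_mem_peSet {N : ℕ} {φ : Additive (Gamma0 N) →+ ℤ}
    (hφ : IsParabolicHom (Gamma0 N) φ) {x : Additive (Gamma0 N)} (hx : x ∈ peSet N) : φ x = 0 := by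
  obtain ⟨σ, hσ, k, g, hx⟩ := hx
  have htors : ∀ m : ℕ, 0 < m → σ ^ m = 1 → φ x = 0 := by
    intro m hm hσm
    have h1 : (Additive.toMul x : Gamma0 N) ^ m = 1 := by
      apply Subtype.ext
      rw [Subgroup.coe_pow, hx, Subgroup.coe_one]
      have : (g⁻¹ * σ ^ k * g) ^ m = g⁻¹ * (σ ^ k) ^ m * g := by
        have := conj_pow (a := g⁻¹) (b := σ ^ k) (i := m)
        simpa using this
      rw [this, ← pow_mul, mul_comm k m, pow_mul, hσm, one_pow, mul_one, inv_mul_cancel]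
    have h2 : m • x = 0 := by
      have : Additive.ofMul ((Additive.toMul x : Gamma0 N) ^ m) = m • x := rfl
      rw [← this, h1]
      rfl
    have h3 : m • φ x = 0 := by rw [← map_nsmul, h2, map_zero]
    rcases smul_eq_zero.mp h3 with h | h
    · omega
    · exact h
  rcases hσ with rfl | rfl | hσ
  · exact htors 4 (by norm_num) Fermat.Agent.S21.CohomBound.S_pow_four
  · exact htors 6 (by norm_num) Fermat.Agent.S21.CohomBound.ST_pow_six
  · rw [Set.mem_singleton_iff] at hσ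
    subst hσ
    apply hφ (Additive.toMul x)
    rw [hx]
    simp only [Matrix.SpecialLinearGroup.coe_mul]
    rw [Matrix.trace_mul_comm, ← Matrix.mul_assoc, ← Matrix.SpecialLinearGroup.coe_mul,
      mul_inv_cancel, Matrix.SpecialLinearGroup.coe_one, Matrix.one_mul]
    have h3 := coe_T_zpow (k : ℤ)
    rw [zpow_natCast] at h3
    rw [h3]
    simp [Matrix.trace_fin_two]

/-- **The count**: `#Hom_{par,ell}(Γ₀(N), ℤ/n) = n ^ (2 g)`. -/
theorem card_homPE (N : ℕ) [NeZero N] (n : ℕ) (hn : 0 < n) :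
    Nat.card (homPE N (ZMod n)) = n ^ (2 * finrank ℂ (CuspForm (Gamma0 N) 2)) := by
  rw [← finrank_parabolicHoms_int]
  apply card_reduction n hn
  · intro φ hφ γ hγ
    have : (n : ℤ) • φ (Additive.ofMul γ) = 0 := hφ γ hγ
    have hn' : (n : ℤ) ≠ 0 := by exact_mod_cast hn.ne'
    rcases smul_eq_zero.mp this with h | h
    · exact absurd h hn'
    · exact h
  · intro φ hφ x hx
    show ((φ x : ℤ) : ZMod n) = 0
    rw [apply_eq_zero_of_mem_peSet hφ hx]
    simp
  · intro χ hχ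
    obtain ⟨φ, hφ, -, hφχ⟩ := exists_lift N n χ (mem_homPE.mp hχ)
    exact ⟨φ, hφ, AddMonoidHom.ext hφχ⟩

/-- The reduction map `Hom_par(Γ₀(N), ℤ) → Hom_{par,ell}(Γ₀(N), ℤ/n)` is onto. -/
theorem exists_lift_of_mem_homPE (N : ℕ) [NeZero N] (n : ℕ) {χ : Additive (Gamma0 N) →+ ZMod n}
    (hχ : χ ∈ homPE N (ZMod n)) :
    ∃ φ ∈ parabolicHoms ℤ (Gamma0 N) ℤ, castTo (ZMod n) φ = χ := by
  obtain ⟨φ, hφ, -, hφχ⟩ := exists_lift N n χ (mem_homPE.mp hχ)
  exact ⟨φ, hφ, AddMonoidHom.ext hφχ⟩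

end Fermat.Agent.S16.Lift
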