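import Fermat.Agent.S21.CohomBound

/-!
# S16, lifting lemma, part 3: the equality case of the cohomological bound (owner: helper261)

If the bound of `S21/CohomBound.lean` is an equality, every admissible pair of data
`(a, e) ∈ R s × R (s * t)` with `e - a ∈ R t` comes from an element of `P × (G ⧸ Γ → ℂ)`.
-/

set_option autoImplicit false

open Module

namespace Fermat.Agent.S16.Lift

open Fermat.Agent.S21.CohomBound

/-- Equality case of `CohomBound.abstract_count`. -/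
lemma abstract_surj {V W : Type*} [AddCommGroup V] [Module ℂ V] [FiniteDimensional ℂ V]
    [AddCommGroup W] [Module ℂ W] (A B C : Submodule ℂ V) (a e : W →ₗ[ℂ] V) (ev : W →ₗ[ℂ] ℂ)
    (ha : ∀ x, a x ∈ A) (he : ∀ x, e x ∈ B) (hc : ∀ x, (e - a) x ∈ C)
    (hinj : ∀ x, a x = 0 → e x = 0 → ev x = 0 → x = 0)
    (hdim : finrank ℂ A + finrank ℂ B + finrank ℂ C + 1
      ≤ finrank ℂ W + finrank ℂ (A ⊔ B : Submodule ℂ V))
    (x y : V) (hx : x ∈ A) (hy : y ∈ B) (hxy : y - x ∈ C) : ∃ w, a w = x ∧ e w = y := by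
  have hfin : Module.Finite ℂ W := (abstract_count A B C a e ev ha he hc hinj).1
  let jA : W →ₗ[ℂ] A := LinearMap.codRestrict A a ha
  let jB : W →ₗ[ℂ] B := LinearMap.codRestrict B e he
  let jC : W →ₗ[ℂ] C := LinearMap.codRestrict C (e - a) hc
  have hf : ∀ x, (jA.prod (jB.prod jC)) x ∈ LinearMap.ker (relMap A B C) := by
    intro x
    rw [LinearMap.mem_ker, relMap_apply]
    simp [jA, jB, jC]
  let J : W →ₗ[ℂ] (LinearMap.ker (relMap A B C) × ℂ) :=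
    (LinearMap.codRestrict _ (jA.prod (jB.prod jC)) hf).prod ev
  have hJ : Function.Injective J := by
    refine (injective_iff_map_eq_zero J).mpr ?_
    intro x hx
    have hx1 : a x = 0 := by
      have := congrArg (fun y => ((y.1 : A × B × C).1 : V)) hx
      simpa [J, jA] using this
    have hx2 : e x = 0 := by
      have := congrArg (fun y => ((y.1 : A × B × C).2.1 : V)) hx
      simpa [J, jB] using this
    have hx3 : ev x = 0 := by
      have := congrArg (fun y => y.2) hx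
      simpa [J] using this
    exact hinj x hx1 hx2 hx3
  have h1 := LinearMap.finrank_le_finrank_of_injective hJ
  have h2 := finrank_ker_relMap A B C
  have h3 : finrank ℂ (LinearMap.ker (relMap A B C) × ℂ)
      = finrank ℂ (LinearMap.ker (relMap A B C)) + 1 := by
    rw [Module.finrank_prod, Module.finrank_self]
  have heq : finrank ℂ W = finrank ℂ (LinearMap.ker (relMap A B C) × ℂ) := by omega
  have hsurj : Function.Surjective J :=
    (LinearMap.injective_iff_surjective_of_finrank_eq_finrank heq).mp hJ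
  have hmem : ((⟨x, hx⟩, ⟨y, hy⟩, ⟨y - x, hxy⟩) : A × B × C) ∈ LinearMap.ker (relMap A B C) := by
    rw [LinearMap.mem_ker, relMap_apply]
    simp
  obtain ⟨w, hw⟩ := hsurj (⟨_, hmem⟩, 0)
  refine ⟨w, ?_, ?_⟩
  · have := congrArg (fun y => ((y.1 : A × B × C).1 : V)) hw
    simpa [J, jA] using this
  · have := congrArg (fun y => ((y.1 : A × B × C).2.1 : V)) hw
    simpa [J, jB] using this

variable {G : Type*} [Group G] {Γ : Subgroup G}

/-- **Equality case of the abstract bound.** -/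
theorem exists_of_data [Γ.FiniteIndex] (s t : G)
    (hgen : Subgroup.closure {s, t} = (⊤ : Subgroup G))
    (P : Submodule ℂ (Additive Γ →+ ℂ))
    (hs : ∃ n : ℕ, 0 < n ∧ ∀ φ ∈ P, ∀ g : G, g⁻¹ * s ^ n * g ∈ Γ ∧ ext Γ φ (g⁻¹ * s ^ n * g) = 0)
    (hu : ∃ n : ℕ, 0 < n ∧ ∀ φ ∈ P, ∀ g : G,
      g⁻¹ * (s * t) ^ n * g ∈ Γ ∧ ext Γ φ (g⁻¹ * (s * t) ^ n * g) = 0)
    (ht : ∃ n : ℕ, 0 < n ∧ ∀ φ ∈ P, ∀ g : G, g⁻¹ * t ^ n * g ∈ Γ ∧ ext Γ φ (g⁻¹ * t ^ n * g) = 0)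
    (heq : Γ.index + 2 ≤
      finrank ℂ P + finrank ℂ (inv Γ s) + finrank ℂ (inv Γ (s * t)) + finrank ℂ (inv Γ t))
    (a e : G ⧸ Γ → ℂ) (ha : a ∈ R Γ s) (he : e ∈ R Γ (s * t)) (hae : e - a ∈ R Γ t) :
    ∃ φ ∈ P, ∃ v : G ⧸ Γ → ℂ, diffMap Γ s (φ, v) = a ∧ diffMap Γ (s * t) (φ, v) = e := by
  classical
  have : Fintype (G ⧸ Γ) := Subgroup.fintypeQuotientOfFiniteIndex
  have hgen' : Subgroup.closure {s, s * t} = (⊤ : Subgroup G) := by
    rw [eq_top_iff, ← hgen, Subgroup.closure_le]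
    have h1 : s ∈ Subgroup.closure {s, s * t} := Subgroup.subset_closure (by simp)
    have h2 : s * t ∈ Subgroup.closure {s, s * t} := Subgroup.subset_closure (by simp)
    rintro x (rfl | hx)
    · exact h1
    · rw [Set.mem_singleton_iff] at hx
      subst hx
      have h3 := Subgroup.mul_mem _ (Subgroup.inv_mem _ h1) h2
      simpa using h3
  have hfinP : Module.Finite ℂ P := (finrank_add_le s t hgen P hs hu ht).1
  obtain ⟨ns, hns, hs⟩ := hs
  obtain ⟨nu, hnu, hu⟩ := hu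
  obtain ⟨nt, hnt, ht⟩ := ht
  let ι : (P × (G ⧸ Γ → ℂ)) →ₗ[ℂ] ((Additive Γ →+ ℂ) × (G ⧸ Γ → ℂ)) :=
    LinearMap.prodMap P.subtype LinearMap.id
  have hmem : ∀ (σ : G) (n : ℕ), 0 < n →
      (∀ φ ∈ P, ∀ g : G, g⁻¹ * σ ^ n * g ∈ Γ ∧ ext Γ φ (g⁻¹ * σ ^ n * g) = 0) →
      ∀ x, (diffMap Γ σ ∘ₗ ι) x ∈ R Γ σ := by
    intro σ n hn h x
    exact Submodule.add_mem _ (coc_mem_R _ σ n hn (h _ x.1.2)) ⟨x.2, rfl⟩
  have hC : ∀ x, (diffMap Γ (s * t) ∘ₗ ι - diffMap Γ s ∘ₗ ι) x ∈ R Γ t := by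
    intro x
    have h1 : (diffMap Γ (s * t) ∘ₗ ι - diffMap Γ s ∘ₗ ι) x
        = (L Γ t - 1) (diffMap Γ s (ι x)) + (diffMap Γ t ∘ₗ ι) x := by
      ext q
      simp only [LinearMap.sub_apply, LinearMap.comp_apply, Pi.sub_apply, Pi.add_apply,
        diffMap_mul, Fermat.Agent.S21.CohomBound.L_apply, Module.End.one_apply]
      ring
    rw [h1]
    exact Submodule.add_mem _ ⟨_, rfl⟩ (hmem t nt hnt ht x)
  have hinj : ∀ x, (diffMap Γ s ∘ₗ ι) x = 0 → (diffMap Γ (s * t) ∘ₗ ι) x = 0 →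
      (LinearMap.proj ((1 : G) : G ⧸ Γ) ∘ₗ LinearMap.snd ℂ P (G ⧸ Γ → ℂ)) x = 0 → x = 0 := by
    intro x hx1 hx2 hx3
    have h0 := eq_zero_of_diffMap_eq_zero (ι x)
      (diffMap_eq_zero_of_gen s (s * t) hgen' (ι x) hx1 hx2) hx3
    have h1 : (x.1 : Additive Γ →+ ℂ) = 0 := congrArg Prod.fst h0
    have h2 : x.2 = 0 := congrArg Prod.snd h0
    exact Prod.ext (Subtype.ext h1) h2
  have h5 := finrank_R_sup_R (Γ := Γ) s (s * t) hgen'
  have h6 := finrank_R_add_finrank_inv (Γ := Γ) s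
  have h7 := finrank_R_add_finrank_inv (Γ := Γ) (s * t)
  have h8 := finrank_R_add_finrank_inv (Γ := Γ) t
  have h9 : finrank ℂ (G ⧸ Γ → ℂ) = Γ.index := by
    rw [Module.finrank_fintype_fun_eq_card, Subgroup.index, Nat.card_eq_fintype_card]
  have h10 : finrank ℂ (P × (G ⧸ Γ → ℂ)) = finrank ℂ P + Γ.index := by
    rw [Module.finrank_prod, h9]
  obtain ⟨w, hw1, hw2⟩ := abstract_surj (R Γ s) (R Γ (s * t)) (R Γ t) (diffMap Γ s ∘ₗ ι)
    (diffMap Γ (s * t) ∘ₗ ι) (LinearMap.proj ((1 : G) : G ⧸ Γ) ∘ₗ LinearMap.snd ℂ P (G ⧸ Γ → ℂ))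
    (hmem s ns hns hs) (hmem (s * t) nu hnu hu) hC hinj (by omega) a e ha he hae
  exact ⟨w.1, w.1.2, w.2, hw1, hw2⟩

end Fermat.Agent.S16.Lift
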