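import Mathlib

/-!
# S16, lifting lemma, part 1: Shapiro cocycles with arbitrary coefficients (owner: helper261)

`G` a group, `Γ` a subgroup, `A` an additive commutative group.
* `coc Γ φ : G → G ⧸ Γ → A`, the Shapiro cocycle of `φ : Additive Γ →+ A`;
* `IsCoc D`: the cocycle identity `D (g * h) q = D g (h • q) + D h q`;
* a cocycle with values in a subgroup `B` at two generators has values in `B`;
* the orbit sum criterion for solving `w (σ x) - w x = v x`.
-/

set_option autoImplicit false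

namespace Fermat.Agent.S16.Lift

section Coc

variable {G : Type*} [Group G] (Γ : Subgroup G) {A : Type*} [AddCommGroup A]

/-- Extension by zero of an additive character of `Γ`. -/
noncomputable def ext (φ : Additive Γ →+ A) (g : G) : A :=
  open Classical in if h : g ∈ Γ then φ (Additive.ofMul ⟨g, h⟩) else 0

variable {Γ}

lemma ext_of_mem (φ : Additive Γ →+ A) {g : G} (h : g ∈ Γ) :
    ext Γ φ g = φ (Additive.ofMul ⟨g, h⟩) := by
  simp [ext, h]

lemma ext_mul (φ : Additive Γ →+ A) {g h : G} (hg : g ∈ Γ) (hh : h ∈ Γ) :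
    ext Γ φ (g * h) = ext Γ φ g + ext Γ φ h := by
  rw [ext_of_mem φ hg, ext_of_mem φ hh, ext_of_mem φ (Γ.mul_mem hg hh), ← map_add]
  rfl

lemma ext_one (φ : Additive Γ →+ A) : ext Γ φ 1 = 0 := by
  rw [ext_of_mem φ Γ.one_mem]
  exact map_zero φ

lemma coc_mem (g : G) (q : G ⧸ Γ) : (g • q).out⁻¹ * g * q.out ∈ Γ := by
  rw [mul_assoc, ← QuotientGroup.eq, QuotientGroup.out_eq']
  conv_lhs => rw [← QuotientGroup.out_eq' q]
  rfl

variable (Γ)

/-- The Shapiro cocycle attached to an additive character of `Γ`. -/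
noncomputable def coc (φ : Additive Γ →+ A) (g : G) (q : G ⧸ Γ) : A :=
  ext Γ φ ((g • q).out⁻¹ * g * q.out)

variable {Γ}

lemma coc_mul (φ : Additive Γ →+ A) (g h : G) (q : G ⧸ Γ) :
    coc Γ φ (g * h) q = coc Γ φ g (h • q) + coc Γ φ h q := by
  unfold coc
  rw [← ext_mul φ (coc_mem g (h • q)) (coc_mem h q), mul_smul]
  congr 1
  group

/-- The value of the Shapiro cocycle at the base point recovers the character. -/
lemma coc_base (φ : Additive Γ →+ A) {γ : G} (hγ : γ ∈ Γ) :
    coc Γ φ γ ((1 : G) : G ⧸ Γ) = φ (Additive.ofMul ⟨γ, hγ⟩) := by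
  set q₀ : G ⧸ Γ := ((1 : G) : G ⧸ Γ) with hq₀
  have hout : q₀.out ∈ Γ := by
    have : ((q₀.out : G) : G ⧸ Γ) = ((1 : G) : G ⧸ Γ) := QuotientGroup.out_eq' q₀
    rw [QuotientGroup.eq] at this
    simpa using this
  have hfix : γ • q₀ = q₀ := by
    change ((γ * 1 : G) : G ⧸ Γ) = ((1 : G) : G ⧸ Γ)
    rw [QuotientGroup.eq]
    simpa using hγ
  unfold coc
  rw [hfix, ext_mul φ (Γ.mul_mem (Γ.inv_mem hout) hγ) hout, ext_mul φ (Γ.inv_mem hout) hγ]
  have h2 : ext Γ φ (q₀.out⁻¹) + ext Γ φ q₀.out = 0 := by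
    rw [← ext_mul φ (Γ.inv_mem hout) hout, inv_mul_cancel, ext_one]
  rw [← ext_of_mem φ hγ]
  calc ext Γ φ q₀.out⁻¹ + ext Γ φ γ + ext Γ φ q₀.out
      = ext Γ φ γ + (ext Γ φ q₀.out⁻¹ + ext Γ φ q₀.out) := by abel
    _ = ext Γ φ γ := by rw [h2, add_zero]

/-- The value of the cocycle of `σ ^ k` at a point fixed by `σ ^ k`. -/
lemma coc_of_fixed (φ : Additive Γ →+ A) (g : G) (q : G ⧸ Γ) (hq : g • q = q) :
    coc Γ φ g q = ext Γ φ (q.out⁻¹ * g * q.out) := by
  unfold coc
  rw [hq]

end Coc

section IsCoc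

variable {G : Type*} [Group G] {X : Type*} [MulAction G X] {A : Type*} [AddCommGroup A]

/-- The cocycle identity for `D : G → X → A`. -/
def IsCoc (D : G → X → A) : Prop := ∀ g h x, D (g * h) x = D g (h • x) + D h x

lemma IsCoc.one {D : G → X → A} (hD : IsCoc D) (x : X) : D 1 x = 0 := by
  have := hD 1 1 x
  simp only [mul_one, one_smul] at this
  exact left_eq_add.mp this

lemma IsCoc.inv {D : G → X → A} (hD : IsCoc D) (g : G) (x : X) :
    D g⁻¹ x = - D g (g⁻¹ • x) := by
  have h1 := hD g g⁻¹ x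
  rw [mul_inv_cancel, hD.one] at h1
  exact eq_neg_of_add_eq_zero_right h1.symm

lemma IsCoc.sub {D E : G → X → A} (hD : IsCoc D) (hE : IsCoc E) :
    IsCoc (fun g x => D g x - E g x) := by
  intro g h x
  simp only [hD g h x, hE g h x]
  abel

lemma IsCoc.map {B : Type*} [AddCommGroup B] (f : A →+ B) {D : G → X → A} (hD : IsCoc D) :
    IsCoc (fun g x => f (D g x)) := by
  intro g h x
  simp only [hD g h x, map_add]

/-- A cocycle whose values at two generators lie in a subgroup has all its values there. -/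
lemma IsCoc.mem_of_gen {D : G → X → A} (hD : IsCoc D) (B : AddSubgroup A) (s u : G)
    (hgen : Subgroup.closure {s, u} = (⊤ : Subgroup G))
    (hs : ∀ x, D s x ∈ B) (hu : ∀ x, D u x ∈ B) (g : G) : ∀ x, D g x ∈ B := by
  have hg : g ∈ Subgroup.closure {s, u} := by rw [hgen]; trivial
  induction hg using Subgroup.closure_induction with
  | mem y hy =>
    rcases hy with rfl | hy
    · exact hs
    · rw [Set.mem_singleton_iff] at hy
      subst hy
      exact hu
  | one => intro x; rw [hD.one]; exact B.zero_mem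
  | mul y z _ _ hy hz =>
    intro x
    rw [hD y z x]
    exact B.add_mem (hy _) (hz _)
  | inv y _ hy =>
    intro x
    rw [hD.inv]
    exact B.neg_mem (hy _)

/-- Two cocycles which agree at two generators are equal. -/
lemma IsCoc.eq_of_gen {D E : G → X → A} (hD : IsCoc D) (hE : IsCoc E) (s u : G)
    (hgen : Subgroup.closure {s, u} = (⊤ : Subgroup G))
    (hs : ∀ x, D s x = E s x) (hu : ∀ x, D u x = E u x) (g : G) (x : X) : D g x = E g x := by
  have := (hD.sub hE).mem_of_gen ⊥ s u hgen (fun x => by simp [hs x]) (fun x => by simp [hu x]) g x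
  simpa [sub_eq_zero] using this

lemma IsCoc.pow {D : G → X → A} (hD : IsCoc D) (σ : G) (n : ℕ) (x : X) :
    D (σ ^ n) x = ∑ i ∈ Finset.range n, D σ (σ ^ i • x) := by
  induction n with
  | zero => simp [hD.one]
  | succ n ih =>
    rw [Finset.sum_range_succ, ← ih, pow_succ', hD σ (σ ^ n) x, add_comm]

end IsCoc

lemma isCoc_coc {G : Type*} [Group G] {Γ : Subgroup G} {A : Type*} [AddCommGroup A]
    (φ : Additive Γ →+ A) : IsCoc (coc Γ φ) := coc_mul φ

section OrbitSum

variable {X : Type*} [Finite X] {A : Type*} [AddCommGroup A]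

/-- **Orbit sum criterion**: `v = w ∘ σ - w` is solvable as soon as the sums of `v` over all
closed `σ`-paths vanish. -/
lemma exists_primitive_of_orbit_sums (σ : Equiv.Perm X) (v : X → A)
    (h : ∀ (x : X) (k : ℕ), (σ ^ k) x = x → ∑ i ∈ Finset.range k, v ((σ ^ i) x) = 0) :
    ∃ w : X → A, ∀ x, w (σ x) - w x = v x := by
  classical
  -- partial sums
  let P : X → ℕ → A := fun r i => ∑ j ∈ Finset.range i, v ((σ ^ j) r)
  have hP_add : ∀ r i k, P r (i + k) = P r i + ∑ j ∈ Finset.range k, v ((σ ^ j) ((σ ^ i) r)) := by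
    intro r i k
    simp only [P, Finset.sum_range_add]
    congr 1
    refine Finset.sum_congr rfl fun j _ => ?_
    rw [← Equiv.Perm.mul_apply, ← pow_add, add_comm]
  have hP_le : ∀ r i i', i ≤ i' → (σ ^ i) r = (σ ^ i') r → P r i = P r i' := by
    intro r i i' hle heq
    obtain ⟨k, rfl⟩ := Nat.exists_eq_add_of_le hle
    rw [hP_add, h ((σ ^ i) r) k, add_zero]
    rw [← Equiv.Perm.mul_apply, ← pow_add, add_comm, ← heq]
  have hP_eq : ∀ r i i', (σ ^ i) r = (σ ^ i') r → P r i = P r i' := by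
    intro r i i' heq
    rcases le_total i i' with hle | hle
    · exact hP_le r i i' hle heq
    · exact (hP_le r i' i hle heq.symm).symm
  -- representatives
  let st : Setoid X := Equiv.Perm.SameCycle.setoid σ
  let rep : X → X := fun x => (Quotient.mk st x).out
  have hrep : ∀ x, σ.SameCycle (rep x) x := fun x => Quotient.exact (Quotient.out_eq (Quotient.mk st x))
  have hrepσ : ∀ x, rep (σ x) = rep x := by
    intro x
    have : Quotient.mk st (σ x) = Quotient.mk st x := by
      apply Quotient.sound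
      exact (Equiv.Perm.sameCycle_apply_left).mpr (Equiv.Perm.SameCycle.refl σ x)
    simp only [rep, this]
  have hidx : ∀ x, ∃ i : ℕ, (σ ^ i) (rep x) = x := fun x => (hrep x).exists_nat_pow_eq
  choose idx hidx using hidx
  refine ⟨fun x => P (rep x) (idx x), fun x => ?_⟩
  have h1 : P (rep (σ x)) (idx (σ x)) = P (rep x) (idx x + 1) := by
    rw [hrepσ]
    apply hP_eq
    have := hidx (σ x)
    rw [hrepσ] at this
    rw [this, pow_succ', Equiv.Perm.mul_apply, hidx]
  show P (rep (σ x)) (idx (σ x)) - P (rep x) (idx x) = v x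
  rw [h1, hP_add]
  simp [hidx]

end OrbitSum

end Fermat.Agent.S16.Lift
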