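import Fermat.Agent.S16.Lift.Cocycle

/-!
# S16, lifting lemma, part 2: exactness of the Shapiro cocycle and integral lifts of the data
(owner: helper261)
-/

set_option autoImplicit false

namespace Fermat.Agent.S16.Lift

section Del

variable {G : Type*} [Group G] {X : Type*} [MulAction G X] {A : Type*} [AddCommGroup A]

/-- The difference operator `w ↦ w ∘ σ - w`. -/
def del (σ : G) : (X → A) →+ (X → A) where
  toFun w := fun x => w (σ • x) - w x
  map_zero' := by funext x; simp
  map_add' a b := by funext x; simp only [Pi.add_apply]; abel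

@[simp] lemma del_apply (σ : G) (w : X → A) (x : X) : del σ w x = w (σ • x) - w x := rfl

lemma sum_del [Fintype X] (σ : G) (w : X → A) : ∑ x, del σ w x = 0 := by
  simp only [del_apply, Finset.sum_sub_distrib]
  rw [sub_eq_zero]
  exact Equiv.sum_comp (MulAction.toPerm σ) w

lemma single_sub_single_mem [DecidableEq X] (s t : G)
    (hgen : Subgroup.closure {s, t} = (⊤ : Subgroup G)) (g : G) :
    ∀ x : X, (Pi.single (g • x) (1 : ℤ) - Pi.single x (1 : ℤ) : X → ℤ) ∈
      (del (X := X) (A := ℤ) s).range ⊔ (del (X := X) (A := ℤ) t).range := by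
  have hbase : ∀ σ : G, ∀ x : X,
      (Pi.single (σ • x) (1 : ℤ) - Pi.single x (1 : ℤ) : X → ℤ) ∈ (del (X := X) (A := ℤ) σ).range := by
    intro σ x
    refine ⟨-Pi.single (σ • x) (1 : ℤ), ?_⟩
    funext r
    simp only [del_apply, Pi.neg_apply, Pi.sub_apply, Pi.single_apply, smul_left_cancel_iff]
    ring
  have hg : g ∈ Subgroup.closure {s, t} := by rw [hgen]; trivial
  induction hg using Subgroup.closure_induction with
  | mem y hy =>
    intro x
    rcases hy with rfl | hy
    · exact AddSubgroup.mem_sup_left (hbase _ x)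
    · rw [Set.mem_singleton_iff] at hy
      subst hy
      exact AddSubgroup.mem_sup_right (hbase _ x)
  | one => intro x; simp
  | mul y z _ _ hy hz =>
    intro x
    have := AddSubgroup.add_mem _ (hy (z • x)) (hz x)
    rw [mul_smul]
    simpa using this
  | inv y _ hy =>
    intro x
    have := AddSubgroup.neg_mem _ (hy (y⁻¹ • x))
    simpa using this

/-- Integral functions of sum zero on a transitive `G`-set are sums of two coboundaries. -/
lemma exists_of_sum_eq_zero [Fintype X] [MulAction.IsPretransitive G X] (s t : G)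
    (hgen : Subgroup.closure {s, t} = (⊤ : Subgroup G)) (w : X → ℤ) (hw : ∑ x, w x = 0) :
    ∃ a b : X → ℤ, ∀ x, w x = del s a x + del t b x := by
  classical
  rcases isEmpty_or_nonempty X with hX | ⟨⟨x₀⟩⟩
  · exact ⟨0, 0, fun x => (hX.false x).elim⟩
  have hv' : w = ∑ x : X, w x • (Pi.single x (1 : ℤ) - Pi.single x₀ (1 : ℤ) : X → ℤ) := by
    simp only [smul_sub, Finset.sum_sub_distrib, ← Finset.sum_smul, hw, zero_smul, sub_zero]
    funext r
    simp [Finset.sum_apply, Pi.single_apply]
  have hmem : w ∈ (del (X := X) (A := ℤ) s).range ⊔ (del (X := X) (A := ℤ) t).range := by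
    rw [hv']
    refine AddSubgroup.sum_mem _ fun x _ => AddSubgroup.zsmul_mem _ ?_ _
    obtain ⟨g, hg⟩ := MulAction.exists_smul_eq G x₀ x
    have := single_sub_single_mem (X := X) s t hgen g x₀
    rwa [hg] at this
  obtain ⟨y, ⟨a, rfl⟩, z, ⟨b, rfl⟩, hyz⟩ := AddSubgroup.mem_sup.mp hmem
  exact ⟨a, b, fun x => by rw [← hyz]; rfl⟩

/-- Lifting the data `(α, β, ε)` from `ZMod n` to `ℤ`, keeping the relation. -/
lemma exists_int_data [Fintype X] [MulAction.IsPretransitive G X] (n : ℕ) (s t : G)
    (hgen : Subgroup.closure {s, t} = (⊤ : Subgroup G)) (α β ε : X → ZMod n)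
    (hrel : ∀ x, del (s * t) β x = del s α (t • x) + del t ε x) :
    ∃ α' β' ε' : X → ℤ, (∀ x, ((α' x : ℤ) : ZMod n) = α x) ∧ (∀ x, ((β' x : ℤ) : ZMod n) = β x) ∧
      (∀ x, ((ε' x : ℤ) : ZMod n) = ε x) ∧
      ∀ x, del (s * t) β' x = del s α' (t • x) + del t ε' x := by
  classical
  choose α0 hα0 using fun x => ZMod.intCast_surjective (α x)
  choose β0 hβ0 using fun x => ZMod.intCast_surjective (β x)
  choose ε0 hε0 using fun x => ZMod.intCast_surjective (ε x)
  let ρ : X → ℤ := fun x => del (s * t) β0 x - del s α0 (t • x) - del t ε0 x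
  have hρ : ∀ x, (n : ℤ) ∣ ρ x := by
    intro x
    rw [← ZMod.intCast_zmod_eq_zero_iff_dvd]
    have := hrel x
    simp only [del_apply] at this
    simp only [ρ, del_apply]
    push_cast
    simp only [hα0, hβ0, hε0]
    rw [this]
    ring
  choose w hw using hρ
  have hsumρ : ∑ x, ρ x = 0 := by
    simp only [ρ, Finset.sum_sub_distrib, sum_del]
    have : ∑ x, del s α0 (t • x) = ∑ x, del s α0 x :=
      Equiv.sum_comp (MulAction.toPerm t) (del s α0)
    rw [this, sum_del]
    simp
  rcases Nat.eq_zero_or_pos n with hn | hn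
  · refine ⟨α0, β0, ε0, hα0, hβ0, hε0, fun x => ?_⟩
    have := hw x
    rw [hn] at this
    simp only [Nat.cast_zero, zero_mul] at this
    simp only [ρ] at this
    linarith
  · have hsumw : ∑ x, w x = 0 := by
      have h1 : (n : ℤ) * ∑ x, w x = 0 := by
        rw [Finset.mul_sum, ← hsumρ]
        exact Finset.sum_congr rfl fun x _ => (hw x).symm
      rcases mul_eq_zero.mp h1 with h | h
      · exfalso
        have : (n : ℤ) ≠ 0 := by exact_mod_cast hn.ne'
        exact this h
      · exact h
    obtain ⟨a, b, hab⟩ := exists_of_sum_eq_zero s t hgen w hsumw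
    refine ⟨fun x => α0 x + n * a x, β0, fun x => ε0 x + n * b x - n * del s a x, ?_, hβ0, ?_, ?_⟩
    · intro x
      push_cast
      simp [hα0]
    · intro x
      push_cast
      simp [hε0]
    · intro x
      have h1 := hw x
      have h2 := hab x
      simp only [ρ, del_apply] at h1 h2 ⊢
      rw [h2] at h1
      linarith

end Del

section Exact

variable {G : Type*} [Group G] {Γ : Subgroup G} [Γ.FiniteIndex] {A : Type*} [AddCommGroup A]

/-- The Shapiro cocycle of `χ` at `σ` is a `σ`-coboundary as soon as `χ` kills all the elements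
of `Γ` which are conjugate to a power of `σ`. -/
lemma exists_del_eq_coc (χ : Additive Γ →+ A) (σ : G)
    (h : ∀ (k : ℕ) (g : G) (hg : g⁻¹ * σ ^ k * g ∈ Γ), χ (Additive.ofMul ⟨_, hg⟩) = 0) :
    ∃ w : G ⧸ Γ → A, ∀ q, del σ w q = coc Γ χ σ q := by
  have hpow : ∀ (i : ℕ) (x : G ⧸ Γ), ((MulAction.toPerm σ : Equiv.Perm (G ⧸ Γ)) ^ i) x = σ ^ i • x := by
    intro i x
    have : (MulAction.toPerm σ : Equiv.Perm (G ⧸ Γ)) ^ i = MulAction.toPerm (σ ^ i) :=
      (map_pow (MulAction.toPermHom G (G ⧸ Γ)) σ i).symm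
    rw [this]
    rfl
  obtain ⟨w, hw⟩ := exists_primitive_of_orbit_sums (MulAction.toPerm σ : Equiv.Perm (G ⧸ Γ))
    (coc Γ χ σ) (by
      intro x k hk
      rw [hpow] at hk
      simp only [hpow]
      rw [← (isCoc_coc χ).pow σ k x, coc_of_fixed χ _ x hk]
      have hmem : x.out⁻¹ * σ ^ k * x.out ∈ Γ := by
        have := coc_mem (Γ := Γ) (σ ^ k) x
        rwa [hk] at this
      rw [ext_of_mem χ hmem]
      exact h k x.out hmem)
  exact ⟨w, fun q => hw q⟩

end Exact

end Fermat.Agent.S16.Lift
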